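import Fermat.Agent.S17.Rat.Basis
import Fermat.Agent.S17.Loc.Sec

/-!
# S17/RAT-PE : rational projective embedding data, equivariance of `lift`, `ev`, `co`.     (owner helper3)

* `exists_PE` : a `Loc.PE K F` with `oo` the given fixed place and all `f j` invariant.   [`exists_basis_fin` for `V = L(n0 oo)`, `V' = L((n0 - 1) oo)`; `V' < V` by `rr`.]
* `a_smul`, `lift_smul`, `ev_smul` : `(g x)~ = g (x~)`,  `(g u)((g x)~) = g (u(x~))`.   [`L.val_smul`; junk case: both sides `0`.]
* `co_smul` : `co e (g u) = map g (co e u)`;   `co_rat` : an invariant section has rational coordinates.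
-/

set_option autoImplicit false

noncomputable section

namespace Fermat.Agent.S17.Rat

open AlgebraicCurve Fermat.Agent.S37 Fermat.Agent.S27 Fermat.Agent.S17.Loc

variable {K F G : Type*} [Field K] [Field F] [Algebra K F] [Group G] [IsAlgClosed K] [CharZero K]

/-- `E` is defined over the fixed field -/
structure RS.IsRat (R : RS K F G) (E : PE K F) : Prop where
  oo : ∀ g : G, R.ρ g • E.oo = E.oo
  f : ∀ j, R.Inv (E.f j)

/-- `H1 D = 0` for divisors of large degree -/
theorem exists_c0 (h : IsFF K F) : ∃ c0 : ℕ, ∀ D : Divisor K F, (c0 : ℤ) ≤ Divisor.degree D →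
    Module.finrank K (H1 D) = 0 := by
  obtain ⟨N, hN⟩ := AR.exists_sup_eq_top h
  refine ⟨N.toNat, fun D hD => (AR.finrank_H1_eq_zero_iff h D).2 (hN D ?_)⟩
  have := Int.self_le_toNat N
  omega

/-- [S17/RAT-PE1] -/
theorem RS.exists_PE (R : RS K F G) (h : IsFF K F) (oo : Place K F)
    (hoo : ∀ g : G, R.ρ g • oo = oo) : ∃ E : PE K F, E.oo = oo ∧ R.IsRat E := by
  classical
  obtain ⟨c0, hc0⟩ := exists_c0 h
  set n0 : ℕ := 2 * c0 + 4 with hn0
  set D : Divisor K F := Finsupp.single oo (n0 : ℤ) with hD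
  have hdeg : Divisor.degree D = n0 := by
    rw [hD, Divisor.degree_single, h.deg_eq_one]; simp
  haveI := finite_L h D
  have hle : D - Finsupp.single oo 1 ≤ D := by
    have := AR.le_add_single (D - Finsupp.single oo 1) oo
    rwa [sub_add_cancel] at this
  have hone : ∀ D' : Divisor K F, (∀ v, 0 ≤ D' v) → (1 : F) ∈ riemannRochSpace D' := by
    intro D' hD'
    rw [mem_riemannRochSpace_iff]
    intro v
    right
    rw [Place.ord_one]
    have := hD' v
    omega
  have hDnn : ∀ v : Place K F, 0 ≤ (D - Finsupp.single oo (1 : ℤ) : Divisor K F) v := by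
    intro v
    rw [hD, ← Finsupp.single_sub, Finsupp.single_apply]
    split_ifs
    · omega
    · exact le_rfl
  have hlt : riemannRochSpace (D - Finsupp.single oo 1) < riemannRochSpace D := by
    refine lt_of_le_of_ne (AR.L_mono hle) fun heq => ?_
    have r1 := rr h D
    have r2 := rr h (D - Finsupp.single oo 1)
    rw [hc0 D (by rw [hdeg]; omega)] at r1
    rw [hc0 _ (by rw [map_sub, RiemannAux.degree_single_one h, hdeg]; omega), map_sub,
      RiemannAux.degree_single_one h, heq] at r2
    omega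
  obtain ⟨r, f, hli, hspan, hinv, hf0, hlast, -⟩ := R.exists_basis_fin (riemannRochSpace D)
    (R.stabS_L (RS.stab_single hoo _)) (hone D fun v => (hDnn v).trans (hle v))
    (riemannRochSpace (D - Finsupp.single oo 1)) (hone _ hDnn) hlt
  have hmem : f (Fin.last r) ∈ riemannRochSpace D := by
    rw [← hspan]; exact Submodule.subset_span ⟨_, rfl⟩
  have hord : oo.ord (f (Fin.last r)) = -(n0 : ℤ) := by
    rw [mem_riemannRochSpace_iff] at hmem hlast
    push Not at hlast
    obtain ⟨v, hv0, hv⟩ := hlast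
    have h1 := (hmem v).resolve_left hv0
    rw [Finsupp.sub_apply, Finsupp.single_apply (a := oo) (b := (1 : ℤ))] at hv
    by_cases hxv : oo = v
    · subst hxv
      rw [if_pos rfl] at hv
      have h2 : D oo = n0 := by rw [hD, Finsupp.single_eq_same]
      rw [h2] at hv h1
      omega
    · rw [if_neg hxv] at hv
      omega
  exact ⟨{ oo := oo, c0 := c0, r := r, f := f, hc0 := hc0, f_zero := hf0, f_last := hord,
           f_li := hli, f_span := hspan }, rfl, ⟨hoo, hinv⟩⟩

/-- the value at a pole is the junk value `0` -/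
theorem val_of_not_reg {x : Place K F} {y : F} (hy : ¬ Reg x y) : val x y = 0 := by
  unfold val
  rw [dif_neg]
  rintro ⟨c, hc⟩
  apply hy
  have h1 : Reg x (y - algebraMap K F c) := by
    rcases hc with h0 | h0
    · rw [h0]; exact x.toValuationSubring.zero_mem
    · exact reg_iff.2 h0.le
  have := h1.add (reg_algebraMap x c)
  rwa [sub_add_cancel] at this

/-- [S17/RAT-PE2] equivariance of `val`, including the junk case -/
theorem val_smul' (h : IsFF K F) (g : SemilinearAut K F) (x : Place K F) (y : F) :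
    val (g • x) (g • y) = SemilinearAut.baseAut g (val x y) := by
  by_cases hy : Reg x y
  · exact L.val_smul h g x hy
  · rw [val_of_not_reg hy, val_of_not_reg (fun h1 => hy ((L.reg_smul g x y).1 h1)), map_zero]

variable {R : RS K F G} {E : PE K F}

/-- [S17/RAT-PE2] -/
theorem RS.IsRat.a_smul (hE : R.IsRat E) (g : G) (x : Place K F) : E.a (R.ρ g • x) = E.a x := by
  classical
  unfold PE.a
  have : R.ρ g • x = E.oo ↔ x = E.oo := by
    constructor
    · intro h1
      rw [← hE.oo g] at h1
      exact MulAction.injective _ h1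
    · rintro rfl
      exact hE.oo g
  simp only [this]

/-- [S17/RAT-PE2] -/
theorem RS.IsRat.lift_smul (hE : R.IsRat E) (h : IsFF K F) (g : G) (x : Place K F)
    (j : Fin (E.r + 1)) :
    E.lift (R.ρ g • x) j = SemilinearAut.baseAut (R.ρ g) (E.lift x j) := by
  unfold PE.lift
  rw [hE.a_smul, ← val_smul' h, ((hE.f j).div (hE.f _)) g]

/-- [S17/RAT-PE2] -/
theorem RS.IsRat.ev_smul (hE : R.IsRat E) (h : IsFF K F) (g : G) (e : ℕ) (u : F) (x : Place K F) :
    E.ev e (R.ρ g • u) (R.ρ g • x) = SemilinearAut.baseAut (R.ρ g) (E.ev e u x) := by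
  unfold PE.ev
  rw [hE.a_smul, ← val_smul' h, div_eq_mul_inv, div_eq_mul_inv, smul_mul', ((hE.f _).pow e).inv g]

/-- the value of an invariant section at a conjugate point -/
theorem RS.IsRat.ev_smul_of_inv (hE : R.IsRat E) (h : IsFF K F) (g : G) (e : ℕ) {u : F}
    (hu : R.Inv u) (x : Place K F) :
    E.ev e u (R.ρ g • x) = SemilinearAut.baseAut (R.ρ g) (E.ev e u x) := by
  have := hE.ev_smul h g e u x
  rwa [hu g] at this

theorem RS.IsRat.smul_aeval (hE : R.IsRat E) (g : G) (Q : MvPolynomial (Fin (E.r + 1)) K) :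
    R.ρ g • MvPolynomial.aeval E.f Q =
      MvPolynomial.aeval E.f
        (MvPolynomial.map (SemilinearAut.baseAut (R.ρ g) : K →+* K) Q) := by
  induction Q using MvPolynomial.induction_on with
  | C a =>
    rw [MvPolynomial.map_C, MvPolynomial.aeval_C, MvPolynomial.aeval_C,
      SemilinearAut.smul_algebraMap]
    rfl
  | add p q hp hq => rw [map_add, map_add, map_add, smul_add, hp, hq]
  | mul_X p i hp =>
    rw [map_mul, map_mul, map_mul, smul_mul', hp, MvPolynomial.map_X, MvPolynomial.aeval_X,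
      hE.f i g]

/-- [S17/RAT-PE3] -/
theorem RS.IsRat.co_smul (hE : R.IsRat E) (h : IsFF K F) (g : G) (e : ℕ) (u : F)
    (hu : u ∈ E.W e) :
    E.co e (R.ρ g • u) =
      MvPolynomial.map (SemilinearAut.baseAut (R.ρ g) : K →+* K) (E.co e u) := by
  obtain ⟨h1, h2⟩ := E.co_spec h hu
  have h3 := E.co_unique h (e := e)
    (Q := MvPolynomial.map (SemilinearAut.baseAut (R.ρ g) : K →+* K) (E.co e u))
    ((MvPolynomial.support_map_subset _ _).trans h1)
  rw [← hE.smul_aeval, h2] at h3
  exact h3

/-- [S17/RAT-PE3] -/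
theorem RS.IsRat.co_rat (hE : R.IsRat E) (h : IsFF K F) (e : ℕ) (u : F)
    (hu : u ∈ E.W e) (hinv : R.Inv u) (m : Fin (E.r + 1) →₀ ℕ) :
    ∃ r : ℚ, (E.co e u).coeff m = (r : K) := by
  apply R.fixed
  intro g
  have h1 := hE.co_smul h g e u hu
  rw [hinv g] at h1
  have h2 := congrArg (MvPolynomial.coeff m) h1
  rw [MvPolynomial.coeff_map] at h2
  exact h2.symm

/-- a polynomial with rational coefficients in the `f j` is invariant -/
theorem RS.IsRat.inv_aeval (hE : R.IsRat E) (Q : MvPolynomial (Fin (E.r + 1)) K)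
    (hQ : ∀ m, ∃ r : ℚ, Q.coeff m = (r : K)) : R.Inv (MvPolynomial.aeval E.f Q) := by
  intro g
  rw [hE.smul_aeval]
  congr 1
  ext m
  rw [MvPolynomial.coeff_map]
  obtain ⟨r, hr⟩ := hQ m
  rw [hr]
  exact map_ratCast _ r

end Fermat.Agent.S17.Rat
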