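import Fermat.Agent.S17.Rat.Model

/-!
# S17/RAT-BRANCH : a non-constant function has finitely many branch values.     (owner helper3)
`Rat/Model.lean` = copy of `S27/CH/Model.lean` over `K`.
Plane model `F = K(z)(u)`, `u` integral over `K[z]`, `f` its minimal polynomial; `a ∉ bad` => every place over `z = a` is a smooth point => `ord (z - a) = 1`.
-/

set_option autoImplicit false

noncomputable section

namespace Fermat.Agent.S17.Rat

open AlgebraicCurve Fermat.Agent.S37 Fermat.Agent.S27 Polynomial
open scoped IntermediateField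

variable {K F : Type*} [Field K] [Field F] [Algebra K F]

open scoped IntermediateField.algebraAdjoinAdjoin in
/-- a function field is finite over `K(z)` for every non-constant `z` -/
theorem finiteDimensional_of_transcendental (h : IsFF K F) (z : F) (hz : Transcendental K z) :
    FiniteDimensional K⟮z⟯ F := by
  obtain ⟨x, hx, hfin⟩ := h
  have e1 : Algebra.EssFiniteType K K⟮x⟯ :=
    IntermediateField.essFiniteType_iff.2 ⟨{x}, by simp⟩
  have e2 : Algebra.EssFiniteType K F := Algebra.EssFiniteType.comp K K⟮x⟯ F
  have e3 : Algebra.EssFiniteType K⟮z⟯ F := Algebra.EssFiniteType.of_comp K K⟮z⟯ F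
  have hbx : IsTranscendenceBasis K (fun _ : Unit => x) := by
    have hind : AlgebraicIndependent K (fun _ : Unit => x) :=
      algebraicIndependent_unique_type_iff.2 hx
    rw [AlgebraicIndependent.isTranscendenceBasis_iff_isAlgebraic hind]
    have : Set.range (fun _ : Unit => x) = {x} := by simp
    rw [this]
    exact ⟨fun y => (IsFractionRing.isAlgebraic_iff (Algebra.adjoin K {x}) K⟮x⟯ F).2
      (Algebra.IsAlgebraic.isAlgebraic y)⟩
  have hbz : IsTranscendenceBasis K (fun _ : Unit => z) := by
    have hind : AlgebraicIndependent K (fun _ : Unit => z) :=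
      algebraicIndependent_unique_type_iff.2 hz
    apply hind.isTranscendenceBasis_of_lift_trdeg_le_of_finite
    rw [← hbx.lift_cardinalMk_eq_trdeg]
  have e4 : Algebra.IsAlgebraic K⟮z⟯ F := by
    have := hbz.isAlgebraic_field
    have h2 : Set.range (fun _ : Unit => z) = {z} := by simp
    rwa [h2] at this
  exact Algebra.finite_of_essFiniteType_of_isAlgebraic

variable [IsAlgClosed K] [CharZero K]

open scoped IntermediateField.algebraAdjoinAdjoin in
/-- every non-constant function is the `x`-coordinate of a plane model -/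
theorem exists_model (h : IsFF K F) (z : F) (hz : Transcendental K z) :
    ∃ M : Model K F, M.x = z := by
  have hfin := finiteDimensional_of_transcendental h z hz
  obtain ⟨u0, hu0⟩ := Field.exists_primitive_element K⟮z⟯ F
  have halg : IsAlgebraic (Algebra.adjoin K {z}) u0 :=
    (IsFractionRing.isAlgebraic_iff (Algebra.adjoin K {z}) K⟮z⟯ F).2
      (Algebra.IsAlgebraic.isAlgebraic u0)
  obtain ⟨a, ha0, hint⟩ := halg.exists_integral_multiple
  set u : F := a • u0 with hu
  have hau : u = algebraMap K⟮z⟯ F (algebraMap (Algebra.adjoin K {z}) K⟮z⟯ a) * u0 := by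
    rw [hu, Algebra.smul_def, ← IsScalarTower.algebraMap_apply]
  have ha0' : algebraMap (Algebra.adjoin K {z}) K⟮z⟯ a ≠ 0 := by
    intro h0
    exact ha0 ((map_eq_zero_iff _ (IsFractionRing.injective (Algebra.adjoin K {z}) K⟮z⟯)).1 h0)
  have htop : K⟮z⟯⟮u⟯ = ⊤ := by
    rw [eq_top_iff, ← hu0, IntermediateField.adjoin_simple_le_iff]
    have h1 : u ∈ K⟮z⟯⟮u⟯ := IntermediateField.mem_adjoin_simple_self _ _
    have h2 : u0 = algebraMap K⟮z⟯ F (algebraMap (Algebra.adjoin K {z}) K⟮z⟯ a)⁻¹ * u := by
      rw [hau, ← mul_assoc, ← map_mul, inv_mul_cancel₀ ha0', map_one, one_mul]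
    rw [h2]
    exact mul_mem (IntermediateField.algebraMap_mem _ _) h1
  obtain ⟨f, hmonic, hzero, hdvd, -⟩ := exists_minpoly z u hz hint
  have hreg : ∀ P : Place K F, Reg P z → Reg P u := fun P hP =>
    S24.mem_valuationSubring_of_isIntegral (A := Algebra.adjoin K {z}) P.toValuationSubring
      (S24.adjoin_le_valuationSubring z _ P.algebraMap_mem' hP) hint
  exact ⟨{ x := z, u := u, f := f, tr := hz, fin := hfin, monic := hmonic, zero := hzero,
            dvd := hdvd, frac := frac_of_top z u htop, int := hreg }, rfl⟩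

/-- [S17/RAT-BRANCH] -/
theorem finite_branch (h : IsFF K F) (z : F) (hz : Transcendental K z) :
    ∃ B : Finset K, ∀ a : K, a ∉ B → ∀ P : Place K F, 0 < P.ord (z - algebraMap K F a) →
      P.ord (z - algebraMap K F a) = 1 := by
  obtain ⟨M, rfl⟩ := exists_model h z hz
  refine ⟨M.bad_finite.toFinset, fun a ha P hP => ?_⟩
  rw [Set.Finite.mem_toFinset] at ha
  have hreg : Reg P M.x := by
    have h1 : Reg P (M.x - algebraMap K F a) := reg_iff.2 hP.le
    have := h1.add (reg_algebraMap P a)
    rwa [sub_add_cancel] at this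
  have hval : val P M.x = a := val_eq_of_van h (Or.inr hP)
  have hover : M.Over P a (val P M.u) := by
    have := M.over_of_reg hreg
    rwa [hval] at this
  apply M.ord_sub hover
  intro hd
  exact ha ⟨_, hover.eval_f, hd⟩

end Fermat.Agent.S17.Rat
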