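import Fermat.Agent.S17.Rat.Defs

/-!
# S17/RAT-STABLE : an invariant class contains a stable divisor.     (owner helper3)
`c = Pic0.mk D0`; `(r, E)` from `L.exists_unique_effective h D0 _ oo`; `g • E` is effective and `g • E - E` is principal, so `g • E = E`.  `D := E - r oo`.
-/

set_option autoImplicit false

noncomputable section

namespace Fermat.Agent.S17.Rat

open AlgebraicCurve Fermat.Agent.S37 Fermat.Agent.S27

variable {K F G : Type*} [Field K] [Field F] [Algebra K F] [Group G] [IsAlgClosed K] [CharZero K]

/-- [S17/RAT-STABLE] -/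
theorem RS.exists_stable (R : RS K F G) (h : IsFF K F) (oo : Place K F)
    (hoo : ∀ g : G, R.ρ g • oo = oo) (c : Pic0 K F) (hc : ∀ g : G, R.ρ g • c = c) :
    ∃ D : Divisor.degZero (K := K) (F := F), R.Stab (D : Divisor K F) ∧ Pic0.mk D = c := by
  obtain ⟨D0, rfl⟩ := Pic0.mk_surjective c
  obtain ⟨r, E, hE, hED, huniq⟩ := L.exists_unique_effective h (D0 : Divisor K F)
    (Divisor.mem_degZero.1 D0.2) oo
  have hstab : R.Stab E := by
    intro g
    apply huniq
    · intro Q
      rw [SemilinearAut.divisor_smul_apply]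
      exact hE _
    · have h1 := SemilinearAut.smul_mem_principal (R.ρ g) hED
      rw [smul_sub, smul_sub, SemilinearAut.smul_single, hoo g] at h1
      have h2 : R.ρ g • (D0 : Divisor K F) - (D0 : Divisor K F) ∈
          Divisor.principal (K := K) (F := F) := by
        have h3 := hc g
        rw [SemilinearAut.pic0_smul_mk] at h3
        have h4 := (QuotientAddGroup.eq (s := (Divisor.principal (K := K) (F := F)).addSubgroupOf
          (Divisor.degZero (K := K) (F := F)))).1 h3.symm
        rw [AddSubgroup.mem_addSubgroupOf] at h4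
        have h5 : ((-D0 + SemilinearAut.degZeroSMulHom (R.ρ g) D0 :
            Divisor.degZero (K := K) (F := F)) : Divisor K F) =
            R.ρ g • (D0 : Divisor K F) - (D0 : Divisor K F) := by
          rw [AddSubgroup.coe_add, AddSubgroup.coe_neg, SemilinearAut.coe_degZeroSMulHom]
          abel
        rwa [h5] at h4
      have h6 := add_mem (sub_mem h1 hED) h2
      have h7 : R.ρ g • E - R.ρ g • (D0 : Divisor K F) - Finsupp.single oo (r : ℤ) -
          (E - (D0 : Divisor K F) - Finsupp.single oo (r : ℤ)) +
          (R.ρ g • (D0 : Divisor K F) - (D0 : Divisor K F)) = R.ρ g • E - E := by abel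
      rwa [h7] at h6
  have hdeg : E - Finsupp.single oo (r : ℤ) ∈ Divisor.degZero (K := K) (F := F) := by
    have h1 : E - (D0 : Divisor K F) - Finsupp.single oo (r : ℤ) ∈
        Divisor.degZero (K := K) (F := F) := by
      obtain ⟨f, hf, hfD⟩ := hED
      have : E - (D0 : Divisor K F) - Finsupp.single oo (r : ℤ) = AR.dv h f := by
        ext v
        rw [hfD v, AR.dv_apply h hf]
      rw [this, Divisor.mem_degZero, AR.degree_dv]
    have h2 := add_mem h1 D0.2
    have h3 : E - (D0 : Divisor K F) - Finsupp.single oo (r : ℤ) + (D0 : Divisor K F) =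
        E - Finsupp.single oo (r : ℤ) := by abel
    rwa [h3] at h2
  refine ⟨⟨E - Finsupp.single oo (r : ℤ), hdeg⟩, hstab.sub (RS.stab_single hoo _), ?_⟩
  apply (QuotientAddGroup.eq (s := (Divisor.principal (K := K) (F := F)).addSubgroupOf
          (Divisor.degZero (K := K) (F := F)))).2
  rw [AddSubgroup.mem_addSubgroupOf]
  have h5 : ((-(⟨E - Finsupp.single oo (r : ℤ), hdeg⟩ : Divisor.degZero (K := K) (F := F)) + D0 :
      Divisor.degZero (K := K) (F := F)) : Divisor K F) =
      -(E - (D0 : Divisor K F) - Finsupp.single oo (r : ℤ)) := by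
    rw [AddSubgroup.coe_add, AddSubgroup.coe_neg]
    show -(E - Finsupp.single oo (r : ℤ)) + (D0 : Divisor K F) = _
    abel
  rw [h5]
  exact neg_mem hED

end Fermat.Agent.S17.Rat
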