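import Fermat.Agent.S17.Rat.Basis
import Fermat.Agent.S17.Rat.Branch
import Fermat.Agent.S17.Rat.Stable

/-!
# S17/RAT-PENCIL : rational sections with reduced zero divisor avoiding a finite set.     (owner helper3)

`c0` with `H1 D = 0` for `deg D ≥ c0`.  `D` stable of degree `≥ c0 + 2`.
1. `L(D - x) < L(D)` for every place `x` (`rr`).  `finrank L(D) ≥ 2`.
2. `σ2 ≠ 0` invariant in `L(D)` (`span_inv`); `Z2 = D + dv σ2` has finite support; `σ1` invariant in `L(D)`, not in `L(D - x)` for `x ∈ supp Z2`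
   (the `ℚ`-space of invariant vectors of `L(D)` is not a finite union of proper subspaces: `Subspace.biUnion_ne_univ_of_top_notMem`; properness by `span_inv`).
3. `z = σ1/σ2` is not constant; for `a : ℚ` outside a finite set, `s = σ1 - a σ2`: `ord_x s + D x = ord_x (z - a) + Z2 x`;
   `Z2 x > 0` => `z` has a pole of order exactly `Z2 x` => sum `= 0`;  `Z2 x = 0` => `z` regular at `x`, `ord_x (z - a) ∈ {0, 1}` by `finite_branch`, `= 0` for `x ∈ P` if `a ≠ z(x)`.
-/

set_option autoImplicit false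

noncomputable section

namespace Fermat.Agent.S17.Rat

open AlgebraicCurve Fermat.Agent.S37 Fermat.Agent.S27

variable {K F G : Type*} [Field K] [Field F] [Algebra K F] [Group G] [IsAlgClosed K] [CharZero K]

/-- avoiding finitely many subspaces inside an additive subgroup -/
theorem exists_avoid {k M ι : Type*} [Field k] [CharZero k] [AddCommGroup M] [Module k M]
    (I : AddSubgroup M) (S : Finset ι) (U : ι → Submodule k M)
    (hU : ∀ i ∈ S, ∃ τ ∈ I, τ ∉ U i) : ∃ σ ∈ I, ∀ i ∈ S, σ ∉ U i := by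
  classical
  induction S using Finset.induction_on with
  | empty => exact ⟨0, I.zero_mem, fun i hi => absurd hi (Finset.notMem_empty i)⟩
  | insert y S hy ih =>
    obtain ⟨σ, hσI, hσ⟩ := ih fun i hi => hU i (Finset.mem_insert_of_mem hi)
    obtain ⟨τ, hτI, hτ⟩ := hU y (Finset.mem_insert_self _ _)
    have hdiff : ∀ (i : ι) (n n' : ℕ), n ≠ n' → σ + (n : k) • τ ∈ U i → σ + (n' : k) • τ ∈ U i →
        τ ∈ U i ∧ σ ∈ U i := by
      intro i n n' hne h1 h2
      have h3 : ((n : k) - (n' : k)) • τ ∈ U i := by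
        have := (U i).sub_mem h1 h2
        have h4 : σ + (n : k) • τ - (σ + (n' : k) • τ) = ((n : k) - (n' : k)) • τ := by
          rw [sub_smul]; abel
        rwa [h4] at this
      have h5 : (n : k) - (n' : k) ≠ 0 := sub_ne_zero.2 (Nat.cast_injective.ne hne)
      have h6 : τ ∈ U i := ((U i).smul_mem_iff h5).1 h3
      refine ⟨h6, ?_⟩
      have := (U i).sub_mem h1 ((U i).smul_mem (n : k) h6)
      rwa [add_sub_cancel_right] at this
    have hsub : ∀ i ∈ insert y S, {n : ℕ | σ + (n : k) • τ ∈ U i}.Subsingleton := by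
      intro i hi n hn n' hn'
      by_contra hne
      obtain ⟨h1, h2⟩ := hdiff i n n' hne hn hn'
      rcases Finset.mem_insert.1 hi with rfl | hiS
      · exact hτ h1
      · exact hσ i hiS h2
    have hfin : (⋃ i ∈ insert y S, {n : ℕ | σ + (n : k) • τ ∈ U i}).Finite :=
      Set.Finite.biUnion (Finset.finite_toSet _) fun i hi => (hsub i hi).finite
    obtain ⟨n, hn⟩ := hfin.exists_notMem
    refine ⟨σ + (n : k) • τ, I.add_mem hσI ?_, fun i hi hmem => hn ?_⟩
    · rw [Nat.cast_smul_eq_nsmul]
      exact I.nsmul_mem hτI n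
    · exact Set.mem_biUnion (Finset.mem_coe.2 hi) hmem

/-- invariant elements of a subspace, as an additive subgroup -/
def RS.invSub (R : RS K F G) (V : Submodule K F) : AddSubgroup F where
  carrier := {f | f ∈ V ∧ R.Inv f}
  zero_mem' := ⟨V.zero_mem, RS.Inv.zero⟩
  add_mem' := fun h1 h2 => ⟨V.add_mem h1.1 h2.1, h1.2.add h2.2⟩
  neg_mem' := fun h1 => ⟨V.neg_mem h1.1, h1.2.neg⟩

theorem sub_single_le (D : Divisor K F) (x : Place K F) : D - Finsupp.single x 1 ≤ D := by
  have := AR.le_add_single (D - Finsupp.single x 1) x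
  rwa [sub_add_cancel] at this

/-- `L(D - x) < L(D)` if `H1 (D - x) = 0` -/
theorem exists_not_mem_sub (h : IsFF K F) (D : Divisor K F) (x : Place K F)
    (h1 : Module.finrank K (H1 (D - Finsupp.single x 1)) = 0) :
    ∃ f ∈ riemannRochSpace D, f ∉ riemannRochSpace (D - Finsupp.single x 1) := by
  by_contra hcon
  push Not at hcon
  have heq : riemannRochSpace D = riemannRochSpace (D - Finsupp.single x 1) :=
    le_antisymm hcon (AR.L_mono (sub_single_le D x))
  have r1 := rr h D
  have r2 := rr h (D - Finsupp.single x 1)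
  have h0 : Module.finrank K (H1 D) = 0 := by
    have := finrank_H1_mono h (sub_single_le D x)
    omega
  rw [map_sub, RiemannAux.degree_single_one h, h1, ← heq] at r2
  rw [h0] at r1
  omega

theorem ord_add_eq_zero_of_not_mem {D : Divisor K F} {x : Place K F} {s : F}
    (hs : s ∈ riemannRochSpace D) (hs' : s ∉ riemannRochSpace (D - Finsupp.single x 1)) :
    x.ord s + D x = 0 := by
  classical
  rw [mem_riemannRochSpace_iff] at hs hs'
  push Not at hs'
  obtain ⟨v, hv0, hv⟩ := hs'
  have h1 := (hs v).resolve_left hv0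
  rw [Finsupp.sub_apply, Finsupp.single_apply] at hv
  by_cases hxv : x = v
  · subst hxv
    rw [if_pos rfl] at hv
    omega
  · rw [if_neg hxv] at hv
    omega

theorem mem_sub_single_of_pos {D : Divisor K F} {x : Place K F} {s : F}
    (hs : s ∈ riemannRochSpace D) (hx : 0 < x.ord s + D x) :
    s ∈ riemannRochSpace (D - Finsupp.single x 1) := by
  classical
  rw [mem_riemannRochSpace_iff] at hs ⊢
  intro v
  rcases hs v with h0 | h1
  · exact Or.inl h0
  · right
    rw [Finsupp.sub_apply, Finsupp.single_apply]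
    by_cases hxv : x = v
    · subst hxv
      rw [if_pos rfl]
      omega
    · rw [if_neg hxv]
      omega

theorem transcendental_of_ord_neg {x : Place K F} {z : F} (hz : x.ord z < 0) :
    Transcendental K z := by
  intro halg
  have hint : IsIntegral K z := halg.isIntegral
  have : z ∈ x.toValuationSubring :=
    S24.mem_valuationSubring_of_isIntegral (A := K) x.toValuationSubring x.algebraMap_mem' hint
  have h2 : 0 ≤ x.ord z := reg_iff.1 this
  omega

/-- [S17/RAT-PENCIL0] invariant sections avoiding finitely many points (base point freeness) -/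
theorem RS.exists_inv_avoid (R : RS K F G) (h : IsFF K F) (c0 : ℤ)
    (hc0 : ∀ D : Divisor K F, c0 ≤ Divisor.degree D → Module.finrank K (H1 D) = 0)
    (D : Divisor K F) (hD : R.Stab D) (hdeg : c0 + 1 ≤ Divisor.degree D)
    (P : Finset (Place K F)) :
    ∃ s : F, s ∈ riemannRochSpace D ∧ R.Inv s ∧ (∀ x ∈ P, x.ord s + D x = 0) ∧
      ∀ x ∈ P, s ∉ riemannRochSpace (D - Finsupp.single x 1) := by
  haveI := finite_L h D
  have hV := R.stabS_L hD
  obtain ⟨s, hs, hsP⟩ := exists_avoid (R.invSub (riemannRochSpace D)) P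
    (fun x => riemannRochSpace (D - Finsupp.single x 1)) (by
      intro x _
      by_contra hcon
      push Not at hcon
      obtain ⟨f, hf, hf'⟩ := exists_not_mem_sub h D x (hc0 _ (by
        rw [map_sub, RiemannAux.degree_single_one h]; omega))
      apply hf'
      have h1 : Submodule.span K {f : F | f ∈ riemannRochSpace D ∧ R.Inv f} ≤
          riemannRochSpace (D - Finsupp.single x 1) :=
        Submodule.span_le.2 fun f hf => hcon f hf
      exact h1 (R.span_inv _ hV hf))
  exact ⟨s, hs.1, hs.2, fun x hx => ord_add_eq_zero_of_not_mem hs.1 (hsP x hx), hsP⟩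

/-- [S17/RAT-PENCIL] -/
theorem RS.pencil (R : RS K F G) (h : IsFF K F) (c0 : ℤ)
    (hc0 : ∀ D : Divisor K F, c0 ≤ Divisor.degree D → Module.finrank K (H1 D) = 0)
    (D : Divisor K F) (hD : R.Stab D) (hdeg : c0 + 2 ≤ Divisor.degree D)
    (P : Finset (Place K F)) :
    ∃ s : F, s ≠ 0 ∧ R.Inv s ∧ (∀ x : Place K F, x.ord s + D x = 0 ∨ x.ord s + D x = 1) ∧
      ∀ x ∈ P, x.ord s + D x = 0 := by
  classical
  haveI := infinite_place h
  obtain ⟨x0⟩ : Nonempty (Place K F) := inferInstance
  -- the degree of `D` is positive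
  have hdegpos : 0 < Divisor.degree D := by
    have r := rr h (D - Finsupp.single x0 1 - Finsupp.single x0 1)
    rw [hc0 _ (by rw [map_sub, map_sub, RiemannAux.degree_single_one h]; omega), map_sub, map_sub,
      RiemannAux.degree_single_one h] at r
    have : (0 : ℤ) ≤ (Module.finrank K (riemannRochSpace
      (D - Finsupp.single x0 1 - Finsupp.single x0 1)) : ℤ) := Int.natCast_nonneg _
    have hg : (0 : ℤ) ≤ (genusFF K F : ℤ) := Int.natCast_nonneg _
    push_cast at r
    omega
  -- `σ2`
  obtain ⟨σ2, hσ2, hσ2I, -, hσ2x⟩ := R.exists_inv_avoid h c0 hc0 D hD (by omega) {x0}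
  have hσ20 : σ2 ≠ 0 := by
    rintro rfl
    exact hσ2x x0 (Finset.mem_singleton_self _) (Submodule.zero_mem _)
  have hZ2 : ∀ x : Place K F, 0 ≤ x.ord σ2 + D x := fun x => by
    have := ((mem_riemannRochSpace_iff.1 hσ2) x).resolve_left hσ20
    omega
  let Z2 : Divisor K F := D + AR.dv h σ2
  have hZ2a : ∀ x, Z2 x = x.ord σ2 + D x := fun x => by
    show (D + AR.dv h σ2) x = _
    rw [Finsupp.add_apply, AR.dv_apply h hσ20, add_comm]
  have hZ2deg : 0 < Divisor.degree Z2 := by
    show 0 < Divisor.degree (D + AR.dv h σ2)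
    rw [map_add, AR.degree_dv]
    omega
  obtain ⟨x1, hx1⟩ : ∃ x1, 0 < Z2 x1 := by
    by_contra hcon
    push Not at hcon
    have h0 : Z2 = 0 := by
      ext x
      have h1 := hcon x
      have h2 := hZ2 x
      rw [← hZ2a] at h2
      rw [Finsupp.zero_apply]
      omega
    rw [h0, map_zero] at hZ2deg
    exact lt_irrefl _ hZ2deg
  obtain ⟨σ1, hσ1, hσ1I, hσ1x, hσ1n⟩ := R.exists_inv_avoid h c0 hc0 D hD (by omega) Z2.support
  have hx1s : x1 ∈ Z2.support := Finsupp.mem_support_iff.2 hx1.ne'
  have hσ10 : σ1 ≠ 0 := by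
    rintro rfl
    exact hσ1n x1 hx1s (Submodule.zero_mem _)
  set z : F := σ1 / σ2 with hz
  have hzord : x1.ord z < 0 := by
    have h1 := hσ1x x1 hx1s
    rw [hZ2a] at hx1
    rw [hz, div_eq_mul_inv, Place.ord_mul _ hσ10 (inv_ne_zero hσ20), Place.ord_inv]
    omega
  have hztr : Transcendental K z := transcendental_of_ord_neg hzord
  obtain ⟨B, hB⟩ := finite_branch h z hztr
  obtain ⟨a, ⟨n, rfl⟩, ha⟩ := (Set.infinite_range_of_injective
    (Nat.cast_injective (R := K))).exists_notMem_finset (B ∪ P.image fun x => val x z)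
  rw [Finset.mem_union, not_or] at ha
  obtain ⟨haB, haP⟩ := ha
  have haI : R.Inv (algebraMap K F (n : K)) := by
    have := RS.inv_ratCast (R := R) (n : ℚ)
    rwa [Rat.cast_natCast] at this
  set s : F := σ1 - algebraMap K F (n : K) * σ2 with hs
  have hs_eq : s = σ2 * (z - algebraMap K F (n : K)) := by
    rw [hs, hz]
    field_simp
  have hza0 : z - algebraMap K F (n : K) ≠ 0 := fun h0 =>
    hztr (by rw [sub_eq_zero.1 h0]; exact isAlgebraic_algebraMap _)
  have hs0 : s ≠ 0 := by
    rw [hs_eq]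
    exact mul_ne_zero hσ20 hza0
  have haσ2 : ∀ V : Submodule K F, σ2 ∈ V → algebraMap K F (n : K) * σ2 ∈ V := fun V hV => by
    rw [← Algebra.smul_def]
    exact V.smul_mem _ hV
  have hsL : s ∈ riemannRochSpace D := Submodule.sub_mem _ hσ1 (haσ2 _ hσ2)
  have key : ∀ x : Place K F, (x.ord s + D x = 0 ∨ x.ord s + D x = 1) ∧
      (x ∈ P → x.ord s + D x = 0) := by
    intro x
    by_cases hx : 0 < Z2 x
    · have h1 : σ2 ∈ riemannRochSpace (D - Finsupp.single x 1) :=
        mem_sub_single_of_pos hσ2 (by rw [← hZ2a]; exact hx)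
      have h2 : s ∉ riemannRochSpace (D - Finsupp.single x 1) := by
        intro h3
        apply hσ1n x (Finsupp.mem_support_iff.2 hx.ne')
        have := Submodule.add_mem _ h3 (haσ2 _ h1)
        rwa [hs, sub_add_cancel] at this
      have h4 := ord_add_eq_zero_of_not_mem hsL h2
      exact ⟨Or.inl h4, fun _ => h4⟩
    · have h1 : x.ord σ2 + D x = 0 := by
        have := hZ2 x
        rw [hZ2a] at hx
        omega
      have h2 : x.ord s = x.ord σ2 + x.ord (z - algebraMap K F (n : K)) := by
        rw [hs_eq, Place.ord_mul _ hσ20 hza0]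
      have h3 : -D x ≤ x.ord s := ((mem_riemannRochSpace_iff.1 hsL) x).resolve_left hs0
      by_cases h4 : 0 < x.ord (z - algebraMap K F (n : K))
      · have h5 := hB _ haB x h4
        refine ⟨Or.inr (by omega), fun hxP => ?_⟩
        exfalso
        apply haP
        rw [Finset.mem_image]
        exact ⟨x, hxP, val_eq_of_van h (Or.inr h4)⟩
      · have h5 : x.ord s + D x = 0 := by omega
        exact ⟨Or.inl h5, fun _ => h5⟩
  exact ⟨s, hs0, hσ1I.sub (haI.mul hσ2I), fun x => (key x).1, fun x hx => (key x).2 hx⟩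

/-- [S17/RAT-REP] every invariant class is `[Y - n oo]` with `Y` stable, reduced, effective, of degree `n`, avoiding `P`
(put `oo` into `P`). -/
theorem RS.exists_rep (R : RS K F G) (h : IsFF K F) (c0 : ℤ)
    (hc0 : ∀ D : Divisor K F, c0 ≤ Divisor.degree D → Module.finrank K (H1 D) = 0)
    (oo : Place K F) (hoo : ∀ g : G, R.ρ g • oo = oo) (n : ℤ) (hn : c0 + 2 ≤ n)
    (P : Finset (Place K F)) (c : Pic0 K F) (hc : ∀ g : G, R.ρ g • c = c) :
    ∃ (Y : Divisor K F) (hY : Y - Finsupp.single oo n ∈ Divisor.degZero (K := K) (F := F)),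
      R.Stab Y ∧ (∀ x, Y x = 0 ∨ Y x = 1) ∧ (∀ x ∈ P, Y x = 0) ∧
      Pic0.mk ⟨Y - Finsupp.single oo n, hY⟩ = c := by
  obtain ⟨D0, hD0, rfl⟩ := R.exists_stable h oo hoo c hc
  have hst : R.Stab ((D0 : Divisor K F) + Finsupp.single oo n) := hD0.add (RS.stab_single hoo n)
  have hdeg : Divisor.degree ((D0 : Divisor K F) + Finsupp.single oo n) = n := by
    rw [map_add, Divisor.mem_degZero.1 D0.2, Divisor.degree_single, h.deg_eq_one]
    simp
  obtain ⟨s, hs0, hsI, hs01, hsP⟩ := R.pencil h c0 hc0 _ hst (by rw [hdeg]; exact hn) P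
  have hYa : ∀ x, ((D0 : Divisor K F) + Finsupp.single oo n + AR.dv h s) x =
      x.ord s + ((D0 : Divisor K F) + Finsupp.single oo n) x := fun x => by
    rw [Finsupp.add_apply _ (AR.dv h s), AR.dv_apply h hs0, add_comm]
  have heq : (D0 : Divisor K F) + Finsupp.single oo n + AR.dv h s - Finsupp.single oo n =
      (D0 : Divisor K F) + AR.dv h s := by abel
  have hY : (D0 : Divisor K F) + Finsupp.single oo n + AR.dv h s - Finsupp.single oo n ∈
      Divisor.degZero (K := K) (F := F) := by
    rw [heq, Divisor.mem_degZero, map_add, Divisor.mem_degZero.1 D0.2, AR.degree_dv, add_zero]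
  refine ⟨(D0 : Divisor K F) + Finsupp.single oo n + AR.dv h s, hY, hst.add (R.stab_dv h hsI),
    fun x => by rw [hYa]; exact hs01 x, fun x hx => by rw [hYa]; exact hsP x hx, ?_⟩
  apply (QuotientAddGroup.eq (s := (Divisor.principal (K := K) (F := F)).addSubgroupOf
          (Divisor.degZero (K := K) (F := F)))).2
  rw [AddSubgroup.mem_addSubgroupOf]
  have h5 : ((-(⟨(D0 : Divisor K F) + Finsupp.single oo n + AR.dv h s - Finsupp.single oo n, hY⟩ :
      Divisor.degZero (K := K) (F := F)) + D0 : Divisor.degZero (K := K) (F := F)) :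
      Divisor K F) = -(AR.dv h s) := by
    rw [AddSubgroup.coe_add, AddSubgroup.coe_neg]
    show -((D0 : Divisor K F) + Finsupp.single oo n + AR.dv h s - Finsupp.single oo n) +
      (D0 : Divisor K F) = _
    abel
  rw [h5]
  exact neg_mem ⟨s, hs0, fun v => AR.dv_apply h hs0 v⟩

end Fermat.Agent.S17.Rat
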