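import Fermat.Agent.S17.Rat.Defs
import Fermat.Agent.S37.Mod
import Fermat.Agent.S18.GlueInf
import Fermat.Prelude.Def_ModularCurve_ArithmeticGalois

/-!
# S17/RAT-INST : the rational structure of `FN N` and the place `oo`.     (owner helper3)

* `rsN N : RS Kb (FN N) (Kb ≃ₐ[ℚ] Kb)` : `ρ = arithmeticGalois (modularFunctionFieldFull N)`, `coef i f = (f : LaurentSeries Kb).coeff i`.
* `ooN N : Place Kb (FN N)` : `{f | 0 ≤ order f}` (copy of `S18.Qinf`), fixed by `G`.
* `mem_Gam_iff` : `c ∈ FixedPoints.addSubgroup G (JZero N) ↔ ∀ g, (rsN N).ρ g • c = c`.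
-/

set_option autoImplicit false

noncomputable section

namespace Fermat.Agent.S17.Rat

open AlgebraicCurve ModularCurve Fermat.Agent.S37 Fermat.Agent.S27 Fermat.Agent.S24 HahnSeries
open Fermat.Agent.S18 (order_inv')

section General

variable {k : Type*} [Field k] (E : IntermediateField k (LaurentSeries k))

theorem coe_ne_zero' {x : E} (hx : x ≠ 0) : (x : LaurentSeries k) ≠ 0 := fun h =>
  hx (Subtype.ext h)

/-- the valuation ring of the cusp infinity -/
def Oinf : ValuationSubring (E) where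
  carrier := {x | 0 ≤ (x : LaurentSeries k).order}
  mul_mem' := by
    intro x y hx hy
    simp only [Set.mem_setOf_eq] at hx hy ⊢
    by_cases hx0 : (x : LaurentSeries k) = 0
    · simp [hx0]
    by_cases hy0 : (y : LaurentSeries k) = 0
    · simp [hy0]
    rw [MulMemClass.coe_mul, HahnSeries.order_mul hx0 hy0]
    omega
  one_mem' := by simp
  add_mem' := by
    intro x y hx hy
    simp only [Set.mem_setOf_eq] at hx hy ⊢
    by_cases h0 : (x : LaurentSeries k) + y = 0
    · simp [h0]
    have := HahnSeries.min_order_le_order_add h0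
    rw [AddMemClass.coe_add]
    exact le_trans (le_min hx hy) this
  zero_mem' := by simp
  neg_mem' := by
    intro x hx
    simp only [Set.mem_setOf_eq] at hx ⊢
    rw [NegMemClass.coe_neg, HahnSeries.order_neg]
    exact hx
  mem_or_inv_mem' := by
    intro x
    simp only [Set.mem_setOf_eq]
    by_cases hx0 : (x : LaurentSeries k) = 0
    · left; simp [hx0]
    have h : ((x⁻¹ : E) : LaurentSeries k) = (x : LaurentSeries k)⁻¹ := rfl
    rw [h, order_inv' hx0]
    omega

theorem mem_Oinf {x : E} : x ∈ Oinf E ↔ 0 ≤ (x : LaurentSeries k).order := Iff.rfl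

theorem isPrincipalIdealRing_Oinf : IsPrincipalIdealRing (Oinf E) := by
  classical
  refine ⟨fun I => ?_⟩
  by_cases hI : I = ⊥
  · rw [hI]; exact bot_isPrincipal
  obtain ⟨x0, hx0I, hx00⟩ := Submodule.exists_mem_ne_zero_of_ne_bot hI
  -- the set of orders
  let S : Set ℕ := {n | ∃ x ∈ I, x ≠ 0 ∧ ((x : E) : LaurentSeries k).order = n}
  have hS : S.Nonempty := by
    refine ⟨(((x0 : E) : LaurentSeries k).order).toNat, x0, hx0I, hx00, ?_⟩
    exact (Int.toNat_of_nonneg x0.2).symm
  let n0 := sInf S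
  obtain ⟨x1, hx1I, hx10, hx1⟩ : n0 ∈ S := Nat.sInf_mem hS
  have hmin : ∀ x ∈ I, x ≠ 0 → (n0 : ℤ) ≤ ((x : E) : LaurentSeries k).order := by
    intro x hx hx0
    have : (((x : E) : LaurentSeries k).order).toNat ∈ S :=
      ⟨x, hx, hx0, (Int.toNat_of_nonneg x.2).symm⟩
    have h2 := Nat.sInf_le this
    have h3 := Int.toNat_of_nonneg x.2
    have h4 : (n0 : ℤ) ≤ ((((x : E) : LaurentSeries k).order).toNat : ℤ) := by
      exact_mod_cast h2
    omega
  refine ⟨⟨x1, le_antisymm ?_ ?_⟩⟩
  · intro x hx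
    by_cases hx0 : x = 0
    · rw [hx0]; exact zero_mem _
    have hx1' : (x1 : E) ≠ 0 := fun h => hx10 (Subtype.ext h)
    have hx' : (x : E) ≠ 0 := fun h => hx0 (Subtype.ext h)
    have hq : (x : E) * (x1 : E)⁻¹ ∈ Oinf E := by
      rw [mem_Oinf, MulMemClass.coe_mul]
      have h : (((x1 : E)⁻¹ : E) : LaurentSeries k) =
        ((x1 : E) : LaurentSeries k)⁻¹ := rfl
      rw [h, HahnSeries.order_mul (coe_ne_zero' E hx') (inv_ne_zero (coe_ne_zero' E hx1')),
        order_inv' (coe_ne_zero' E hx1'), hx1]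
      have := hmin x hx hx0
      omega
    rw [Submodule.mem_span_singleton]
    refine ⟨⟨_, hq⟩, ?_⟩
    apply Subtype.ext
    simp only [smul_eq_mul, MulMemClass.coe_mul]
    field_simp
  · rw [Submodule.span_singleton_le_iff_mem]
    exact hx1I

/-- the place `order ≥ 0` of a non-constant subfield of `k((q))` -/
def ooPlace (hE : ∃ x : E, ∀ c : k, x ≠ algebraMap k E c) : Place k E where
  toValuationSubring := Oinf E
  algebraMap_mem' := by
    intro a
    rw [mem_Oinf]
    have h : ((algebraMap k E a : E) : LaurentSeries k) =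
        algebraMap k (LaurentSeries k) a := rfl
    rw [h, algebraMap_laurentSeries_eq_single]
    by_cases ha : a = 0
    · simp [ha]
    · rw [HahnSeries.order_single ha]
  ne_top' := by
    intro h
    obtain ⟨x, hx⟩ := hE
    have hy0 : x - algebraMap k E ((x : LaurentSeries k).coeff 0) ≠ 0 :=
      fun h0 => hx _ (sub_eq_zero.1 h0)
    set y : E := x - algebraMap k E ((x : LaurentSeries k).coeff 0) with hy
    have h1 : y ∈ Oinf E := by rw [h]; exact ValuationSubring.mem_top _
    have h2 : y⁻¹ ∈ Oinf E := by rw [h]; exact ValuationSubring.mem_top _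
    rw [mem_Oinf] at h1 h2
    have h3 : ((y⁻¹ : E) : LaurentSeries k) = (y : LaurentSeries k)⁻¹ := rfl
    rw [h3, order_inv' (coe_ne_zero' E hy0)] at h2
    have h4 : (y : LaurentSeries k).order = 0 := by omega
    have h5 : (y : LaurentSeries k).coeff (y : LaurentSeries k).order ≠ 0 :=
      fun h0 => coe_ne_zero' E hy0 (HahnSeries.coeff_order_eq_zero.1 h0)
    rw [h4] at h5
    apply h5
    have h6 : (y : LaurentSeries k) = (x : LaurentSeries k) -
        algebraMap k (LaurentSeries k) ((x : LaurentSeries k).coeff 0) := rfl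
    rw [h6, algebraMap_laurentSeries_eq_single, HahnSeries.coeff_sub, HahnSeries.coeff_single_same,
      sub_self]
  isPrincipalIdealRing' := isPrincipalIdealRing_Oinf E

end General

/-- [S17/RAT-INST1] -/
def rsN (N : ℕ) [NeZero N] : RS Kb (FN N) (Kb ≃ₐ[ℚ] Kb) where
  ρ := arithmeticGalois (modularFunctionFieldFull N)
  coef i :=
    { toFun := fun f => (f : LaurentSeries Kb).coeff i
      map_add' := fun _ _ => rfl
      map_smul' := fun c f => by
        show ((c • f : FN N) : LaurentSeries Kb).coeff i = c * (f : LaurentSeries Kb).coeff i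
        rw [Algebra.smul_def]
        have : ((algebraMap Kb (FN N) c * f : FN N) : LaurentSeries Kb) =
            algebraMap Kb (LaurentSeries Kb) c * (f : LaurentSeries Kb) := rfl
        rw [this, algebraMap_laurentSeries_eq_single, HahnSeries.coeff_single_zero_mul] }
  coef_smul g f i := rfl
  coef_inj f hf := Subtype.ext (HahnSeries.ext (funext hf))
  fixed c hc := by
    have hcl : IsAlgClosure ℚ Kb := by
      have h : (DivisionRing.toRatAlgebra : Algebra ℚ Kb) = AlgebraicClosure.instAlgebra ℚ :=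
        Subsingleton.elim _ _
      rw [h]
      infer_instance
    have : IsGalois ℚ Kb := IsAlgClosure.isGalois ℚ Kb
    obtain ⟨r, hr⟩ := (InfiniteGalois.mem_range_algebraMap_iff_fixed (k := ℚ) c).2 hc
    exact ⟨r, by rw [← hr]; simp⟩

theorem exists_nonconst (N : ℕ) [NeZero N] :
    ∃ x : FN N, ∀ c : Kb, x ≠ algebraMap Kb (FN N) c :=
  ⟨jN N, fun c hc => transcendental_jN N (hc ▸ isAlgebraic_algebraMap c)⟩

/-- the cusp `∞` -/
def ooN (N : ℕ) [NeZero N] : Place Kb (FN N) := ooPlace (modularFunctionFieldBar N) (exists_nonconst N)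

theorem reg_ooN (N : ℕ) [NeZero N] (f : FN N) :
    Reg (ooN N) f ↔ 0 ≤ (f : LaurentSeries Kb).order := Iff.rfl

theorem order_coeffMap {L : Type*} [Field L] (φ : L →+* L) (x : LaurentSeries L) :
    (coeffMap φ x).order = x.order := by
  by_cases hx : x = 0
  · rw [hx, map_zero]
  have hx' : coeffMap φ x ≠ 0 := by
    intro h0
    apply hx
    ext k
    have := congrArg (fun y : LaurentSeries L => y.coeff k) h0
    simp only [coeffMap_coeff, HahnSeries.coeff_zero] at this
    rw [HahnSeries.coeff_zero]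
    exact (map_eq_zero φ).1 this
  apply le_antisymm
  · apply HahnSeries.order_le_of_coeff_ne_zero
    rw [coeffMap_coeff]
    exact fun h0 => hx (HahnSeries.coeff_order_eq_zero.1 ((map_eq_zero φ).1 h0))
  · apply HahnSeries.order_le_of_coeff_ne_zero
    intro h0
    apply hx'
    apply HahnSeries.coeff_order_eq_zero.1
    rw [coeffMap_coeff, h0, map_zero]

/-- [S17/RAT-INST2] -/
theorem smul_ooN (N : ℕ) [NeZero N] (g : Kb ≃ₐ[ℚ] Kb) : (rsN N).ρ g • ooN N = ooN N := by
  apply Place.ext
  rw [SemilinearAut.smul_toValuationSubring]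
  ext f
  rw [ValuationSubring.mem_pointwise_smul_iff_inv_smul_mem, ← map_inv]
  show 0 ≤ ((arithmeticGalois (modularFunctionFieldFull N) g⁻¹ • f : FN N) :
    LaurentSeries Kb).order ↔ 0 ≤ (f : LaurentSeries Kb).order
  rw [coe_arithmeticGalois_smul, order_coeffMap]

theorem mem_Gam_iff (N : ℕ) [NeZero N] (c : JZero N) :
    c ∈ FixedPoints.addSubgroup (Kb ≃ₐ[ℚ] Kb) (JZero N) ↔ ∀ g, (rsN N).ρ g • c = c :=
  Iff.rfl

end Fermat.Agent.S17.Rat
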