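import Fermat.Agent.S17.Rat.Defs

/-!
# S17/RAT-BASIS : invariant bases of stable finite-dimensional subspaces.     (owner helper3)

* `exists_coef_inj` : `V` finite-dimensional => finitely many `coef i` are jointly injective on `V`.
  [induction on `finrank`: or: the subspaces `⨅ i ∈ s, ker (coef i) ⊓ V` (s finite) have a minimal element (finite dimension); it is `⊥` by `coef_inj`.]
* `span_inv` : `V` stable, finite-dimensional => `V ≤ span K {f ∈ V | Inv f}`.
  [`Φ : V → (s → K)` injective, `V' = map Φ V`; `L.span_fixed (Pi.basisFun K s) {baseAut (ρ g)} {rationals}`; a vector `w = Φ v` with rational coordinates: `Φ (g • v) = Φ v`, so `g • v = v`.]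
* `exists_basis` : invariant basis extending a given independent set of invariant vectors.
* `coord_rat` : coordinates of invariant vectors in invariant independent families are rational.
-/

set_option autoImplicit false

noncomputable section

namespace Fermat.Agent.S17.Rat

open AlgebraicCurve Fermat.Agent.S37 Fermat.Agent.S27

variable {K F G : Type*} [Field K] [Field F] [Algebra K F] [Group G]

/-- [S17/RAT-BASIS1] -/
theorem RS.exists_coef_inj (R : RS K F G) (V : Submodule K F) [FiniteDimensional K V] :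
    ∃ s : Finset ℤ, ∀ f ∈ V, (∀ i ∈ s, R.coef i f = 0) → f = 0 := by
  classical
  have key : ∀ n : ℕ, ∀ U : Submodule K F, U ≤ V → Module.finrank K U ≤ n →
      ∃ s : Finset ℤ, ∀ f ∈ U, (∀ i ∈ s, R.coef i f = 0) → f = 0 := by
    intro n
    induction n with
    | zero =>
      intro U hUV hU
      haveI : FiniteDimensional K U := Submodule.finiteDimensional_of_le hUV
      have : U = ⊥ := Submodule.finrank_eq_zero.1 (Nat.le_zero.1 hU)
      exact ⟨∅, fun f hf _ => by rw [this] at hf; exact (Submodule.mem_bot K).1 hf⟩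
    | succ n ih =>
      intro U hUV hU
      haveI : FiniteDimensional K U := Submodule.finiteDimensional_of_le hUV
      by_cases hbot : U = ⊥
      · exact ⟨∅, fun f hf _ => by rw [hbot] at hf; exact (Submodule.mem_bot K).1 hf⟩
      obtain ⟨f0, hf0U, hf00⟩ := Submodule.exists_mem_ne_zero_of_ne_bot hbot
      obtain ⟨i0, hi0⟩ : ∃ i, R.coef i f0 ≠ 0 := by
        by_contra hcon
        push Not at hcon
        exact hf00 (R.coef_inj f0 hcon)
      have hlt : U ⊓ LinearMap.ker (R.coef i0) < U := by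
        refine lt_of_le_of_ne inf_le_left fun heq => hi0 ?_
        have : f0 ∈ U ⊓ LinearMap.ker (R.coef i0) := by rw [heq]; exact hf0U
        exact LinearMap.mem_ker.1 this.2
      have hfr := Submodule.finrank_lt_finrank_of_lt hlt
      obtain ⟨s, hs⟩ := ih (U ⊓ LinearMap.ker (R.coef i0)) (inf_le_left.trans hUV) (by omega)
      exact ⟨insert i0 s, fun f hf hz =>
        hs f ⟨hf, LinearMap.mem_ker.2 (hz i0 (Finset.mem_insert_self _ _))⟩
          fun i hi => hz i (Finset.mem_insert_of_mem hi)⟩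
  exact key _ V le_rfl le_rfl

/-- [S17/RAT-BASIS2] -/
theorem RS.span_inv (R : RS K F G) (V : Submodule K F) [FiniteDimensional K V] (hV : R.StabS V) :
    V ≤ Submodule.span K {f : F | f ∈ V ∧ R.Inv f} := by
  classical
  obtain ⟨s, hs⟩ := R.exists_coef_inj V
  let Φ : F →ₗ[K] (s → K) := LinearMap.pi fun i : s => R.coef i
  have hΦ : ∀ f (i : s), Φ f i = R.coef i f := fun _ _ => rfl
  have hinj : ∀ f ∈ V, Φ f = 0 → f = 0 := fun f hf h0 =>
    hs f hf fun i hi => by
      have := congrFun h0 ⟨i, hi⟩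
      simpa [hΦ] using this
  have hT : Submodule.span K {f : F | f ∈ V ∧ R.Inv f} ≤ V :=
    Submodule.span_le.2 fun f hf => hf.1
  have key := L.span_fixed (Pi.basisFun K s)
    (Set.range fun g : G => SemilinearAut.baseAut (R.ρ g)) {c : K | ∃ r : ℚ, c = (r : K)}
    (fun c hc => R.fixed c fun g => hc _ ⟨g, rfl⟩) (V.map Φ) (by
      rintro _ ⟨g, rfl⟩ _ ⟨v, hv, rfl⟩
      refine ⟨Φ (R.ρ g • v), ⟨_, hV g v hv, rfl⟩, fun i => ?_⟩
      rw [Pi.basisFun_repr, Pi.basisFun_repr, hΦ, hΦ, R.coef_smul])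
  intro v hv
  have h1 := key (Φ v) ⟨v, hv, rfl⟩
  have h2 : Submodule.span K {w : s → K | w ∈ V.map Φ ∧
      ∀ i, (Pi.basisFun K s).repr w i ∈ {c : K | ∃ r : ℚ, c = (r : K)}} ≤
      (Submodule.span K {f : F | f ∈ V ∧ R.Inv f}).map Φ := by
    rw [Submodule.span_le]
    rintro w ⟨⟨f, hf, rfl⟩, hw⟩
    refine ⟨f, Submodule.subset_span ⟨hf, fun g => ?_⟩, rfl⟩
    have h3 : R.ρ g • f - f = 0 := by
      apply hinj _ (V.sub_mem (hV g f hf) hf)
      ext i
      obtain ⟨r, hr⟩ := hw i
      rw [Pi.basisFun_repr, hΦ] at hr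
      rw [map_sub, Pi.sub_apply, hΦ, hΦ, R.coef_smul, hr, map_ratCast, sub_self, Pi.zero_apply]
    exact sub_eq_zero.1 h3
  obtain ⟨u, hu, huv⟩ := h2 h1
  have h4 : v - u = 0 := hinj _ (V.sub_mem hv (hT hu)) (by rw [map_sub, huv, sub_self])
  rw [sub_eq_zero.1 h4]
  exact hu

/-- [S17/RAT-BASIS3] an invariant basis containing a given independent set of invariant vectors -/
theorem RS.exists_basis (R : RS K F G) (V : Submodule K F) [FiniteDimensional K V]
    (hV : R.StabS V) (s : Set F) (hs : ∀ f ∈ s, f ∈ V ∧ R.Inv f)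
    (hli : LinearIndepOn K id s) :
    ∃ t : Set F, s ⊆ t ∧ (∀ f ∈ t, f ∈ V ∧ R.Inv f) ∧ LinearIndepOn K id t ∧
      Submodule.span K t = V ∧ t.Finite := by
  have hst : s ⊆ {f : F | f ∈ V ∧ R.Inv f} := hs
  have ht : ∀ f ∈ hli.extend hst, f ∈ V ∧ R.Inv f := fun f hf => hli.extend_subset hst hf
  have hind := hli.linearIndepOn_extend hst
  refine ⟨hli.extend hst, hli.subset_extend hst, ht, hind, ?_, ?_⟩
  · apply le_antisymm
    · exact Submodule.span_le.2 fun f hf => (ht f hf).1
    · refine (R.span_inv V hV).trans ?_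
      exact Submodule.span_le.2 (hli.subset_span_extend hst)
  · have h1 : LinearIndependent K (fun x : hli.extend hst => (⟨x.1, (ht x.1 x.2).1⟩ : V)) := by
      apply LinearIndependent.of_comp V.subtype
      exact hind.linearIndependent
    have := h1.finite
    exact Set.toFinite _

/-- [S17/RAT-BASIS4] -/
theorem RS.coord_rat (R : RS K F G) {ι : Type*} (b : ι → F) (hb : LinearIndependent K b)
    (hinv : ∀ i, R.Inv (b i)) (c : ι →₀ K) (hc : R.Inv (c.sum fun i a => a • b i)) (i : ι) :
    ∃ r : ℚ, c i = (r : K) := by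
  apply R.fixed
  intro g
  have h1 : R.ρ g • (c.sum fun i a => a • b i) =
      (c.mapRange (SemilinearAut.baseAut (R.ρ g)) (map_zero _)).sum fun i a => a • b i := by
    rw [Finsupp.sum_mapRange_index (fun i => by rw [zero_smul]), Finsupp.sum, Finsupp.sum,
      Finset.smul_sum]
    refine Finset.sum_congr rfl fun j _ => ?_
    rw [Algebra.smul_def, Algebra.smul_def, smul_mul', SemilinearAut.smul_algebraMap, hinv j g]
  rw [hc g] at h1
  have h2 : c = c.mapRange (SemilinearAut.baseAut (R.ρ g)) (map_zero _) := by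
    apply hb
    rw [Finsupp.linearCombination_apply, Finsupp.linearCombination_apply]
    exact h1
  have h3 := DFunLike.congr_fun h2 i
  rw [Finsupp.mapRange_apply] at h3
  exact h3.symm

/-- [S17/RAT-BASIS5] the shape wanted by LOC: `f 0 = 1`, the last one is a prescribed vector. -/
theorem RS.exists_basis_fin (R : RS K F G) (V : Submodule K F) [FiniteDimensional K V]
    (hV : R.StabS V) (h1 : (1 : F) ∈ V) (V' : Submodule K F) (h1' : (1 : F) ∈ V')
    (hlt : V' < V) :
    ∃ (r : ℕ) (f : Fin (r + 1) → F), LinearIndependent K f ∧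
      Submodule.span K (Set.range f) = V ∧ (∀ i, R.Inv (f i)) ∧ f 0 = 1 ∧ f (Fin.last r) ∉ V' ∧
      0 < r := by
  classical
  obtain ⟨fs, hfsV, hfsI, hfs'⟩ : ∃ fs : F, fs ∈ V ∧ R.Inv fs ∧ fs ∉ V' := by
    by_contra hcon
    push Not at hcon
    have : V ≤ V' := (R.span_inv V hV).trans (Submodule.span_le.2 fun f hf => hcon f hf.1 hf.2)
    exact absurd hlt (not_lt_of_ge this)
  have hpair : LinearIndepOn K id ({1, fs} : Set F) := by
    apply linearIndepOn_id_pair one_ne_zero
    intro a ha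
    exact hfs' (ha ▸ V'.smul_mem a h1')
  obtain ⟨t, hst, ht, hind, hspan, hfin⟩ := R.exists_basis V hV {1, fs} (by
    rintro f (rfl | rfl)
    · exact ⟨h1, RS.Inv.one⟩
    · exact ⟨hfsV, hfsI⟩) hpair
  have h1t : (1 : F) ∈ t := hst (by simp)
  have hfst : fs ∈ t := hst (by simp)
  have hne : (1 : F) ≠ fs := fun h => hfs' (h ▸ h1')
  haveI : Finite t := hfin
  obtain ⟨n, ⟨e0⟩⟩ := Finite.exists_equiv_fin t
  have hn : 2 ≤ n := by
    by_contra hlt2
    have hsub : Subsingleton (Fin n) := by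
      have : n ≤ 1 := by omega
      exact Fin.subsingleton_iff_le_one.2 this
    have := e0.injective (Subsingleton.elim (e0 ⟨1, h1t⟩) (e0 ⟨fs, hfst⟩))
    exact hne (congrArg Subtype.val this)
  obtain ⟨r, rfl⟩ : ∃ r, n = r + 1 := ⟨n - 1, by omega⟩
  have hr : 0 < r := by omega
  have h0last : (0 : Fin (r + 1)) ≠ Fin.last r := by
    intro h
    have := congrArg Fin.val h
    simp at this
    omega
  -- first swap
  let e1 : Fin (r + 1) ≃ t := (Equiv.swap 0 (e0 ⟨1, h1t⟩)).trans e0.symm
  have he10 : e1 0 = ⟨1, h1t⟩ := by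
    simp [e1]
  let b1 := e1.symm ⟨fs, hfst⟩
  have hb1 : (0 : Fin (r + 1)) ≠ b1 := by
    intro h
    have h2 : e1 0 = e1 b1 := congrArg e1 h
    rw [he10, Equiv.apply_symm_apply] at h2
    exact hne (congrArg Subtype.val h2)
  let e2 : Fin (r + 1) ≃ t := (Equiv.swap (Fin.last r) b1).trans e1
  have he20 : e2 0 = ⟨1, h1t⟩ := by
    show e1 (Equiv.swap (Fin.last r) b1 0) = _
    rw [Equiv.swap_apply_of_ne_of_ne h0last hb1, he10]
  have he2l : e2 (Fin.last r) = ⟨fs, hfst⟩ := by
    show e1 (Equiv.swap (Fin.last r) b1 (Fin.last r)) = _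
    rw [Equiv.swap_apply_left, Equiv.apply_symm_apply]
  refine ⟨r, fun i => (e2 i : F), ?_, ?_, fun i => (ht _ (e2 i).2).2, ?_, ?_, hr⟩
  · exact hind.linearIndependent.comp e2 e2.injective
  · have : Set.range (fun i => (e2 i : F)) = t := by
      ext x
      constructor
      · rintro ⟨i, rfl⟩; exact (e2 i).2
      · intro hx; exact ⟨e2.symm ⟨x, hx⟩, by simp⟩
    rw [this, hspan]
  · show ((e2 0 : t) : F) = 1
    rw [he20]
  · show ((e2 (Fin.last r) : t) : F) ∉ V'
    rw [he2l]; exact hfs'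

end Fermat.Agent.S17.Rat
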