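import Fermat.Agent.S27.L.Gal
import Fermat.Agent.S27.L.Min

/-!
# S17, block RAT : rational structures on a function field.     (owner helper3)

ABSTRACT SETTING.  `K` algebraically closed of characteristic `0`, `F/K` a function field (`h : IsFF K F`), `G` a group.
`RS K F G` ("rational structure"):
* `ρ : G →* SemilinearAut K F` (Prelude: `SemilinearAut` acts on `F`, `Place K F`, `Divisor K F`, `Pic0 K F`),
* `coef i : F →ₗ[K] K` (`i : ℤ`; the Laurent coefficients at `oo`), equivariant and jointly injective,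
* the fixed points of `G` on `K` are the rational numbers.
The instance for `F = FN N`, `G = Gal(Qbar/Q)`, `ρ = arithmeticGalois _` is in `Rat/Inst.lean`.

`R.Inv f` : `f : F` is `G`-invariant ("rational function");   `R.Stab D` : the divisor `D` is `G`-stable ("rational divisor").

This file: equivariance of `Reg`, `val`, `ord`, `riemannRochSpace`, `AR.dv` (all sorry-free).
-/

set_option autoImplicit false

noncomputable section

namespace Fermat.Agent.S17.Rat

open AlgebraicCurve Fermat.Agent.S37 Fermat.Agent.S27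

/-- a rational structure -/
structure RS (K F G : Type*) [Field K] [Field F] [Algebra K F] [Group G] where
  ρ : G →* SemilinearAut K F
  coef : ℤ → F →ₗ[K] K
  coef_smul : ∀ (g : G) (f : F) (i : ℤ), coef i (ρ g • f) = SemilinearAut.baseAut (ρ g) (coef i f)
  coef_inj : ∀ f : F, (∀ i, coef i f = 0) → f = 0
  fixed : ∀ c : K, (∀ g : G, SemilinearAut.baseAut (ρ g) c = c) → ∃ r : ℚ, c = (r : K)

variable {K F G : Type*} [Field K] [Field F] [Algebra K F] [Group G]

namespace RS

variable (R : RS K F G)

/-- `G`-invariant functions -/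
def Inv (f : F) : Prop := ∀ g : G, R.ρ g • f = f

/-- `G`-stable divisors -/
def Stab (D : Divisor K F) : Prop := ∀ g : G, R.ρ g • D = D

/-- `G`-stable subspaces -/
def StabS (V : Submodule K F) : Prop := ∀ g : G, ∀ f ∈ V, R.ρ g • f ∈ V

variable {R}

theorem Inv.zero : R.Inv 0 := fun g => smul_zero _

theorem Inv.one : R.Inv 1 := fun g => smul_one _

theorem Inv.add {f f' : F} (hf : R.Inv f) (hf' : R.Inv f') : R.Inv (f + f') := fun g => by
  rw [smul_add, hf g, hf' g]

theorem Inv.sub {f f' : F} (hf : R.Inv f) (hf' : R.Inv f') : R.Inv (f - f') := fun g => by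
  rw [smul_sub, hf g, hf' g]

theorem Inv.neg {f : F} (hf : R.Inv f) : R.Inv (-f) := fun g => by
  rw [smul_neg, hf g]

theorem Inv.mul {f f' : F} (hf : R.Inv f) (hf' : R.Inv f') : R.Inv (f * f') := fun g => by
  rw [smul_mul', hf g, hf' g]

theorem Inv.pow {f : F} (hf : R.Inv f) (n : ℕ) : R.Inv (f ^ n) := fun g => by
  rw [smul_pow', hf g]

theorem Inv.inv {f : F} (hf : R.Inv f) : R.Inv f⁻¹ := fun g => by
  rw [smul_inv'', hf g]

theorem Inv.div {f f' : F} (hf : R.Inv f) (hf' : R.Inv f') : R.Inv (f / f') := by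
  rw [div_eq_mul_inv]; exact hf.mul hf'.inv

theorem inv_ratCast [CharZero K] (r : ℚ) : R.Inv (algebraMap K F (r : K)) := fun g => by
  rw [SemilinearAut.smul_algebraMap, map_ratCast]

theorem Inv.sum {ι : Type*} (s : Finset ι) {f : ι → F} (hf : ∀ i ∈ s, R.Inv (f i)) :
    R.Inv (∑ i ∈ s, f i) := fun g => by
  rw [Finset.smul_sum]
  exact Finset.sum_congr rfl fun i hi => hf i hi g

theorem Inv.prod {ι : Type*} (s : Finset ι) {f : ι → F} (hf : ∀ i ∈ s, R.Inv (f i)) :
    R.Inv (∏ i ∈ s, f i) := fun g => by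
  rw [Finset.smul_prod']
  exact Finset.prod_congr rfl fun i hi => hf i hi g

theorem Stab.zero : R.Stab 0 := fun g => smul_zero _

theorem Stab.add {D D' : Divisor K F} (hD : R.Stab D) (hD' : R.Stab D') : R.Stab (D + D') :=
  fun g => by rw [smul_add, hD g, hD' g]

theorem Stab.sub {D D' : Divisor K F} (hD : R.Stab D) (hD' : R.Stab D') : R.Stab (D - D') :=
  fun g => by rw [smul_sub, hD g, hD' g]

theorem Stab.neg {D : Divisor K F} (hD : R.Stab D) : R.Stab (-D) :=
  fun g => by rw [smul_neg, hD g]

theorem stab_single {P : Place K F} (hP : ∀ g : G, R.ρ g • P = P) (n : ℤ) :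
    R.Stab (Finsupp.single P n) := fun g => by
  rw [SemilinearAut.smul_single, hP g]

theorem Stab.apply_smul {D : Divisor K F} (hD : R.Stab D) (g : G) (P : Place K F) :
    D (R.ρ g • P) = D P := by
  have := SemilinearAut.divisor_smul_apply_smul (R.ρ g) D P
  rwa [hD g] at this

theorem stab_iff {D : Divisor K F} : R.Stab D ↔ ∀ (g : G) (P : Place K F), D (R.ρ g • P) = D P := by
  refine ⟨fun h g P => h.apply_smul g P, fun h g => ?_⟩
  ext P
  rw [SemilinearAut.divisor_smul_apply, ← h g (((R.ρ g)⁻¹ • P)), smul_inv_smul]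

end RS

/-! ### equivariance (any semilinear automorphism) -/

theorem ord_smul_inv (g : SemilinearAut K F) (P : Place K F) (f : F) :
    P.ord (g • f) = (g⁻¹ • P).ord f := by
  have := SemilinearAut.ord_smul g (g⁻¹ • P) f
  rwa [smul_inv_smul] at this

theorem smul_mem_L_iff (g : SemilinearAut K F) (D : Divisor K F) (f : F) :
    g • f ∈ riemannRochSpace (g • D) ↔ f ∈ riemannRochSpace D := by
  rw [mem_riemannRochSpace_iff, mem_riemannRochSpace_iff]
  constructor
  · intro h P
    rcases h (g • P) with h0 | h1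
    · left; exact (smul_eq_zero_iff_eq g).1 h0
    · right; rwa [SemilinearAut.divisor_smul_apply_smul, SemilinearAut.ord_smul] at h1
  · intro h P
    rcases h (g⁻¹ • P) with h0 | h1
    · left; rw [h0, smul_zero]
    · right; rwa [SemilinearAut.divisor_smul_apply, ord_smul_inv]

theorem RS.stabS_L (R : RS K F G) {D : Divisor K F} (hD : R.Stab D) :
    R.StabS (riemannRochSpace D) := fun g f hf => by
  have := (smul_mem_L_iff (R.ρ g) D f).2 hf
  rwa [hD g] at this

variable [IsAlgClosed K] [CharZero K]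

theorem smul_dv (h : IsFF K F) (g : SemilinearAut K F) (f : F) :
    g • AR.dv h f = AR.dv h (g • f) := by
  by_cases hf : f = 0
  · subst hf
    rw [smul_zero]
    have : AR.dv h (0 : F) = 0 := by rw [AR.dv, dif_pos rfl]
    rw [this, smul_zero]
  · have hgf : g • f ≠ 0 := fun h0 => hf ((smul_eq_zero_iff_eq g).1 h0)
    ext P
    rw [SemilinearAut.divisor_smul_apply, AR.dv_apply h hf, AR.dv_apply h hgf, ord_smul_inv]

theorem RS.stab_dv (R : RS K F G) (h : IsFF K F) {f : F} (hf : R.Inv f) : R.Stab (AR.dv h f) :=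
  fun g => by rw [smul_dv, hf g]

/-- the value of an invariant function at a conjugate place -/
theorem RS.val_smul_of_inv (R : RS K F G) (h : IsFF K F) {f : F} (hf : R.Inv f) (g : G)
    (P : Place K F) (hreg : Reg P f) :
    val (R.ρ g • P) f = SemilinearAut.baseAut (R.ρ g) (val P f) := by
  have := L.val_smul h (R.ρ g) P hreg
  rwa [hf g] at this

theorem RS.reg_smul_of_inv (R : RS K F G) {f : F} (hf : R.Inv f) (g : G) (P : Place K F) :
    Reg (R.ρ g • P) f ↔ Reg P f := by
  have := L.reg_smul (R.ρ g) P f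
  rwa [hf g] at this

theorem RS.ord_smul_of_inv (R : RS K F G) {f : F} (hf : R.Inv f) (g : G) (P : Place K F) :
    (R.ρ g • P).ord f = P.ord f := by
  have := SemilinearAut.ord_smul (R.ρ g) P f
  rwa [hf g] at this

end Fermat.Agent.S17.Rat
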